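import Mathlib

/-!
# Row S31 — piece D2, generic part (helper486)

The adic completion `AdicCompletion (maximalIdeal R) R` of a discrete valuation ring `R` is a
complete discrete valuation ring, with the same residue field; it has characteristic zero if `R`
has, and the maximal-ideal filtration of the completion detects the one of `R`.

Everything is deduced from Mathlib's `AdicCompletion` API (`RingTheory/AdicCompletion/LocalRing`).
Mathlib only.
-/

set_option autoImplicit false

namespace Fermat.Agent.S31.H486

open IsLocalRing

section Generic

variable (R : Type*) [CommRing R] [IsDomain R] [IsDiscreteValuationRing R]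

/-- The structure map `R → R^` is injective. -/
theorem algebraMap_adicCompletion_injective :
    Function.Injective (algebraMap R (AdicCompletion (maximalIdeal R) R)) := by
  have h := AdicCompletion.of_injective (maximalIdeal R) R
  intro a b hab
  apply h
  simpa [AdicCompletion.algebraMap_apply] using hab

/-- Membership in powers of the maximal ideal of the completion, for elements of `R`. -/
theorem mem_pow_of_algebraMap_mem_pow (x : R) (k : ℕ)
    (hx : algebraMap R (AdicCompletion (maximalIdeal R) R) x ∈
      maximalIdeal (AdicCompletion (maximalIdeal R) R) ^ k) :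
    x ∈ maximalIdeal R ^ k := by
  have fg : (maximalIdeal R).FG := (maximalIdeal R).fg_of_isNoetherianRing
  rw [AdicCompletion.maximalIdeal_eq_map, ← Ideal.map_pow,
    ← Submodule.restrictScalars_mem R, ← Ideal.smul_top_eq_map,
    AdicCompletion.pow_smul_top_eq_ker_eval fg] at hx
  have h2 : AdicCompletion.eval (maximalIdeal R) R k
      (algebraMap R (AdicCompletion (maximalIdeal R) R) x) = 0 := hx
  rw [AdicCompletion.algebraMap_apply] at h2
  simp only [AdicCompletion.eval_of] at h2
  have h3 := (Submodule.Quotient.mk_eq_zero _).mp h2
  simpa using h3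

/-- The image of a uniformizer generates the maximal ideal of the completion. -/
theorem maximalIdeal_adicCompletion_eq_span {ϖ : R} (hϖ : Irreducible ϖ) :
    maximalIdeal (AdicCompletion (maximalIdeal R) R) =
      Ideal.span {algebraMap R (AdicCompletion (maximalIdeal R) R) ϖ} := by
  rw [AdicCompletion.maximalIdeal_eq_map, hϖ.maximalIdeal_eq, Ideal.map_span, Set.image_singleton]

/-- Powers of the image of a uniformizer are nonzero in the completion. -/
theorem algebraMap_uniformizer_pow_ne_zero {ϖ : R} (hϖ : Irreducible ϖ) (n : ℕ) :
    algebraMap R (AdicCompletion (maximalIdeal R) R) ϖ ^ n ≠ 0 := by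
  rw [← map_pow]
  intro h
  have := algebraMap_adicCompletion_injective R (h.trans (map_zero _).symm)
  exact pow_ne_zero n hϖ.ne_zero this

/-- Every nonzero element of the completion is a unit times a power of the uniformizer. -/
theorem exists_eq_pow_mul_unit {ϖ : R} (hϖ : Irreducible ϖ)
    (x : AdicCompletion (maximalIdeal R) R) (hx : x ≠ 0) :
    ∃ (n : ℕ) (u : (AdicCompletion (maximalIdeal R) R)ˣ),
      x = algebraMap R (AdicCompletion (maximalIdeal R) R) ϖ ^ n * u := by
  classical
  have hm : maximalIdeal (AdicCompletion (maximalIdeal R) R) =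
      Ideal.span {algebraMap R (AdicCompletion (maximalIdeal R) R) ϖ} :=
    maximalIdeal_adicCompletion_eq_span R hϖ
  -- Hausdorff: some power of the maximal ideal does not contain `x`
  have hH : IsHausdorff (maximalIdeal (AdicCompletion (maximalIdeal R) R))
      (AdicCompletion (maximalIdeal R) R) := inferInstance
  have hex : ∃ n : ℕ, x ∉ maximalIdeal (AdicCompletion (maximalIdeal R) R) ^ n := by
    by_contra hcon
    simp only [not_exists, not_not] at hcon
    apply hx
    apply hH.haus' x
    intro n
    rw [SModEq.zero, smul_eq_mul, Ideal.mul_top]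
    exact hcon n
  have hn : x ∉ maximalIdeal (AdicCompletion (maximalIdeal R) R) ^ (Nat.find hex) :=
    Nat.find_spec hex
  have hn0 : Nat.find hex ≠ 0 := by
    intro h0
    rw [h0, pow_zero, Ideal.one_eq_top] at hn
    exact hn Submodule.mem_top
  obtain ⟨k, hk⟩ := Nat.exists_eq_succ_of_ne_zero hn0
  have hk' : x ∈ maximalIdeal (AdicCompletion (maximalIdeal R) R) ^ k := by
    by_contra hc
    have := Nat.find_min' hex hc
    omega
  rw [hm, Ideal.span_singleton_pow, Ideal.mem_span_singleton'] at hk'
  obtain ⟨u, hu⟩ := hk'
  have hunit : IsUnit u := by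
    by_contra hnu
    have humem : u ∈ maximalIdeal (AdicCompletion (maximalIdeal R) R) :=
      (mem_maximalIdeal u).mpr hnu
    apply hn
    rw [hk, Nat.succ_eq_add_one, pow_succ, ← hu, mul_comm]
    refine Ideal.mul_mem_mul humem ?_
    rw [hm, Ideal.span_singleton_pow]
    exact Ideal.mem_span_singleton_self _
  exact ⟨k, hunit.unit, by rw [IsUnit.unit_spec, mul_comm, hu]⟩

/-- The completion of a discrete valuation ring is a domain. -/
theorem isDomain_adicCompletion : IsDomain (AdicCompletion (maximalIdeal R) R) := by
  obtain ⟨ϖ, hϖ⟩ := IsDiscreteValuationRing.exists_irreducible R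
  have : Nontrivial (AdicCompletion (maximalIdeal R) R) := inferInstance
  have : NoZeroDivisors (AdicCompletion (maximalIdeal R) R) := by
    refine ⟨fun {a b} hab => ?_⟩
    by_contra hcon
    simp only [not_or] at hcon
    obtain ⟨n, u, hu⟩ := exists_eq_pow_mul_unit R hϖ a hcon.1
    obtain ⟨m, v, hv⟩ := exists_eq_pow_mul_unit R hϖ b hcon.2
    have h1 : algebraMap R (AdicCompletion (maximalIdeal R) R) ϖ ^ (n + m) * ((u * v : _ˣ) : _) = 0 := by
      rw [← hab, hu, hv, pow_add, Units.val_mul]
      ring
    have h2 := (Units.mul_left_eq_zero _).mp h1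
    exact algebraMap_uniformizer_pow_ne_zero R hϖ (n + m) h2
  exact NoZeroDivisors.to_isDomain _

/-- The completion of a discrete valuation ring is a discrete valuation ring. -/
theorem isDiscreteValuationRing_adicCompletion :
    letI := isDomain_adicCompletion R
    IsDiscreteValuationRing (AdicCompletion (maximalIdeal R) R) := by
  have := isDomain_adicCompletion R
  obtain ⟨ϖ, hϖ⟩ := IsDiscreteValuationRing.exists_irreducible R
  have hm : maximalIdeal (AdicCompletion (maximalIdeal R) R) =
      Ideal.span {algebraMap R (AdicCompletion (maximalIdeal R) R) ϖ} :=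
    maximalIdeal_adicCompletion_eq_span R hϖ
  have hπ0 : algebraMap R (AdicCompletion (maximalIdeal R) R) ϖ ≠ 0 := by
    simpa using algebraMap_uniformizer_pow_ne_zero R hϖ 1
  have hprime : Prime (algebraMap R (AdicCompletion (maximalIdeal R) R) ϖ) := by
    rw [← Ideal.span_singleton_prime hπ0, ← hm]
    infer_instance
  apply IsDiscreteValuationRing.ofHasUnitMulPowIrreducibleFactorization
  refine ⟨algebraMap R (AdicCompletion (maximalIdeal R) R) ϖ, hprime.irreducible, ?_⟩
  intro x hx
  obtain ⟨n, u, hu⟩ := exists_eq_pow_mul_unit R hϖ x hx
  exact ⟨n, u, hu.symm⟩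

/-- The completion has finite residue field if `R` has. -/
theorem finite_residueField_adicCompletion [Finite (ResidueField R)] :
    Finite (ResidueField (AdicCompletion (maximalIdeal R) R)) :=
  Finite.of_surjective _ (AdicCompletion.residueField_map_bijective R).surjective

/-- The completion has characteristic zero if `R` has. -/
theorem charZero_adicCompletion [CharZero R] :
    CharZero (AdicCompletion (maximalIdeal R) R) :=
  charZero_of_injective_algebraMap (algebraMap_adicCompletion_injective R)

end Generic

end Fermat.Agent.S31.H486
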