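import Fermat.Agent.S31.H934.D4
import Fermat.Agent.S31.H486.DvrCompletion

/-!
# Row S31 — piece D2 (helper486): `H934.D2Statement p`

For a number field `K` and a prime `v` of `𝓞 K` over `p`, the adic completion of the localization
`(𝓞 K)_v` at its maximal ideal is a complete discrete valuation ring of characteristic zero with
finite residue field, `p` lies in its maximal ideal, and the powers of its maximal ideal detect
the powers of `v` on `𝓞 K`.

Exact statement delivered (interface of `Fermat/Agent/S31/H934/D4.lean`, verbatim):

    theorem d2Statement (p : ℕ) : H934.D2Statement p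
-/

set_option autoImplicit false

namespace Fermat.Agent.S31.H486

open IsDedekindDomain NumberField IsLocalRing

/-- **D2**: every prime of `𝓞 K` over `p` carries a `p`-adic point of `𝓞 K` whose maximal-ideal
filtration detects the powers of the prime. -/
theorem d2Statement (p : ℕ) : H934.D2Statement p := by
  intro K _ _ v hpv
  haveI : v.asIdeal.IsMaximal := v.isMaximal
  haveI : IsDiscreteValuationRing (Localization.AtPrime v.asIdeal) :=
    IsLocalization.AtPrime.isDiscreteValuationRing_of_dedekind_domain (𝓞 K) v.ne_bot _
  have hinj : Function.Injective (algebraMap (𝓞 K) (Localization.AtPrime v.asIdeal)) :=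
    IsLocalization.injective _ v.asIdeal.primeCompl_le_nonZeroDivisors
  haveI : CharZero (Localization.AtPrime v.asIdeal) := charZero_of_injective_algebraMap hinj
  haveI : Finite (𝓞 K ⧸ v.asIdeal) := Ideal.finiteQuotientOfFreeOfNeBot v.asIdeal v.ne_bot
  haveI : Finite (ResidueField (Localization.AtPrime v.asIdeal)) :=
    Finite.of_equiv _
      (IsLocalization.AtPrime.equivQuotMaximalIdeal v.asIdeal
        (Localization.AtPrime v.asIdeal)).toEquiv
  letI : IsDomain (AdicCompletion (maximalIdeal (Localization.AtPrime v.asIdeal))
      (Localization.AtPrime v.asIdeal)) := isDomain_adicCompletion _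
  haveI : IsDiscreteValuationRing (AdicCompletion (maximalIdeal (Localization.AtPrime v.asIdeal))
      (Localization.AtPrime v.asIdeal)) := isDiscreteValuationRing_adicCompletion _
  haveI : Finite (ResidueField (AdicCompletion (maximalIdeal (Localization.AtPrime v.asIdeal))
      (Localization.AtPrime v.asIdeal))) := finite_residueField_adicCompletion _
  haveI : CharZero (AdicCompletion (maximalIdeal (Localization.AtPrime v.asIdeal))
      (Localization.AtPrime v.asIdeal)) := charZero_adicCompletion _
  have hmem : ∀ x : 𝓞 K, x ∈ v.asIdeal →
      algebraMap (Localization.AtPrime v.asIdeal)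
        (AdicCompletion (maximalIdeal (Localization.AtPrime v.asIdeal))
          (Localization.AtPrime v.asIdeal))
        (algebraMap (𝓞 K) (Localization.AtPrime v.asIdeal) x) ∈
      maximalIdeal (AdicCompletion (maximalIdeal (Localization.AtPrime v.asIdeal))
          (Localization.AtPrime v.asIdeal)) := by
    intro x hx
    rw [AdicCompletion.maximalIdeal_eq_map]
    apply Ideal.mem_map_of_mem
    rw [← IsLocalization.AtPrime.map_eq_maximalIdeal v.asIdeal]
    exact Ideal.mem_map_of_mem _ hx
  refine ⟨{ O := AdicCompletion (maximalIdeal (Localization.AtPrime v.asIdeal))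
              (Localization.AtPrime v.asIdeal)
            hp := ?_
            χ := (algebraMap (Localization.AtPrime v.asIdeal)
              (AdicCompletion (maximalIdeal (Localization.AtPrime v.asIdeal))
                (Localization.AtPrime v.asIdeal))).comp
              (algebraMap (𝓞 K) (Localization.AtPrime v.asIdeal)) }, ?_⟩
  · have := hmem (p : 𝓞 K) hpv
    simpa using this
  · intro x k hx
    have h1 : algebraMap (𝓞 K) (Localization.AtPrime v.asIdeal) x ∈
        maximalIdeal (Localization.AtPrime v.asIdeal) ^ k :=
      mem_pow_of_algebraMap_mem_pow _ _ k hx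
    have h2 := IsLocalization.AtPrime.under_maximalIdeal_pow v.asIdeal
      (Localization.AtPrime v.asIdeal) k
    rw [← h2]
    exact h1

end Fermat.Agent.S31.H486
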